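import Fermat.Agent.S36.H996.PUChart

/-!
# Lemma PU, inequality form (helper996, S36 cell REG) — the local input of the THICK1 squeeze

Setting of `principal_of_unit_chart`: `B` a Noetherian integrally closed domain, `n` a prime
(closed point), `P ≤ n` a height-one prime with DVR `O = B_P`, `U ∈ B` with `v_P(U) = N` which is
a unit at every other height-one prime through `n`, `x ∈ P`, `x ≠ 0`.

* `exists_pow_eq_mul_pow_chart` : `s * x ^ N = w * U ^ (c + 1)` with `s ∉ n`  (`c + 1 = v_P(x)`).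
* `hgen_of_pow_eq_chart`        : if `s * x ^ N = w * U` with `s, w ∉ n` then `P B_n = x B_n`.
* `ordLike_le`   : for every order function `ν` at `n` (multiplicative, `0` off `n`, `≥ 1` on `n`;
                   e.g. the order at `n` of the restriction to another component through `n`):
                   `ν U ≤ N * ν x`.                      **[local upper bound]**
* `hgen_of_ordLike_eq` : if `ν U = N * ν x` is finite and positive, then `P B_n = x B_n`.
                                                         **[equality ⇒ regular]**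

Use in the squeeze (helper803's THICK1, `U = q¹² Δ(qz)/Δ(z)`, `N = 12`, `x` any element of `p₁`
restricting to a uniformiser of `C₂` at the node — it exists because `p₁ + p₂` is radical):
`∑_nodes ord_n(Ū|C₂) = (q-1) ψ₁` (degree of a principal divisor on `C₂`), each term `≤ 12`
(`ordLike_le`), `#nodes ≤ (q-1) ψ₁ / 12` (GENUS-UB + S24)  ⟹  every term `= 12`
⟹ (`hgen_of_ordLike_eq`) `p₁` is principal at every node.  No thickness, no node normal form.
-/

set_option autoImplicit false

namespace Fermat.Agent.S36.H996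

open IsLocalRing Fermat.Agent.A2.H849

variable {R : Type*} [CommRing R] [IsDomain R]
variable {K : Type*} [Field K] [Algebra R K] [IsFractionRing R K]

/-- `x ^ N = w * U ^ (c + 1)` with `w ∈ R`, where `c + 1 = v_P(x)`. -/
theorem exists_pow_eq_mul_pow [IsNoetherianRing R] [IsIntegrallyClosed R]
    (O : ValuationSubring K) (P : Ideal R) (hOP : IsLocDVR O P)
    (U x : R) (N : ℕ)
    (hUunit : ∀ (O' : ValuationSubring K) (P' : Ideal R), IsLocDVR O' P' → P' ≠ P → U ∉ P')
    (ϖ : O) (hϖ : Irreducible ϖ) (u : Oˣ)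
    (hU : algebraMap R K U = (u : O) * (ϖ : K) ^ N)
    (hxP : x ∈ P) (hx0 : x ≠ 0) :
    ∃ (c : ℕ) (w : R), x ^ N = w * U ^ (c + 1) := by
  classical
  have := hOP.dvr
  have hinj : Function.Injective (algebraMap R K) := IsFractionRing.injective R K
  have hϖK : (ϖ : K) ≠ 0 := by
    intro h
    apply hϖ.ne_zero
    exact Subtype.ext h
  have huK : ((u : O) : K) ≠ 0 := by
    intro h
    have : (u : O) = 0 := Subtype.ext h
    exact u.ne_zero this
  have hUK : algebraMap R K U ≠ 0 := by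
    rw [hU]
    exact mul_ne_zero huK (pow_ne_zero _ hϖK)
  have hinvO : ∀ v : Oˣ, ((((v : O) : K))⁻¹ ∈ O) := by
    intro v
    have h3 : (((v : O) : K)) * (((v⁻¹ : Oˣ) : O) : K) = 1 := by
      have h4 : (v : O) * ((v⁻¹ : Oˣ) : O) = 1 := Units.mul_inv v
      exact_mod_cast congrArg (fun z : O => (z : K)) h4
    rw [← eq_inv_of_mul_eq_one_right h3]
    exact ((v⁻¹ : Oˣ) : O).2
  obtain ⟨c, ux, hx⟩ := exists_eq_unit_mul_pow_succ hOP ϖ hϖ x hxP hx0
  set ω : K := algebraMap R K x ^ N * (algebraMap R K U ^ (c + 1))⁻¹ with hω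
  have hωO : ω ∈ O := by
    have h1 : ω = ((ux : O) : K) ^ N * ((((u : O) : K))⁻¹) ^ (c + 1) := by
      have hA : algebraMap R K U ^ (c + 1)
          = ((u : O) : K) ^ (c + 1) * (ϖ : K) ^ (N * (c + 1)) := by
        rw [hU, mul_pow, ← pow_mul]
      have hB : algebraMap R K x ^ N = ((ux : O) : K) ^ N * (ϖ : K) ^ (N * (c + 1)) := by
        rw [hx, mul_pow, ← pow_mul, mul_comm (c + 1) N]
      have hM : (ϖ : K) ^ (N * (c + 1)) ≠ 0 := pow_ne_zero _ hϖK
      rw [hω, hA, hB, mul_inv, inv_pow]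
      calc ((ux : O) : K) ^ N * (ϖ : K) ^ (N * (c + 1))
            * ((((u : O) : K) ^ (c + 1))⁻¹ * ((ϖ : K) ^ (N * (c + 1)))⁻¹)
          = ((ux : O) : K) ^ N * (((u : O) : K) ^ (c + 1))⁻¹
            * ((ϖ : K) ^ (N * (c + 1)) * ((ϖ : K) ^ (N * (c + 1)))⁻¹) := by ring
        _ = ((ux : O) : K) ^ N * (((u : O) : K) ^ (c + 1))⁻¹ := by
            rw [mul_inv_cancel₀ hM, mul_one]
    rw [h1]
    exact O.mul_mem _ _ (O.pow_mem (ux : O).2 _) (O.pow_mem (hinvO u) _)
  have hωall : ∀ (O' : ValuationSubring K) (P' : Ideal R), IsLocDVR O' P' → ω ∈ O' := by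
    intro O' P' h'
    by_cases hPP : P' = P
    · subst hPP
      exact isLocDVR_le_of_same h' hOP hωO
    · have hUinv : (algebraMap R K U)⁻¹ ∈ O' := h'.inv_mem U (hUunit O' P' h' hPP)
      rw [hω, ← inv_pow]
      exact O'.mul_mem _ _ (O'.pow_mem (h'.le x) _) (O'.pow_mem hUinv _)
  obtain ⟨w, hw⟩ := mem_range_of_forall_isLocDVR ω hωall
  refine ⟨c, w, hinj ?_⟩
  rw [map_mul, map_pow, map_pow, hw, hω, inv_mul_cancel_right₀ (pow_ne_zero _ hUK)]

/-- If `x ^ N = w * U` with `w` a unit (and `N > 0`), then `P = (x)`. -/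
theorem span_eq_of_pow_eq_unit_mul [IsNoetherianRing R] [IsIntegrallyClosed R]
    (O : ValuationSubring K) (P : Ideal R) (hOP : IsLocDVR O P)
    (U x : R) (N : ℕ) (hN : 0 < N)
    (hUunit : ∀ (O' : ValuationSubring K) (P' : Ideal R), IsLocDVR O' P' → P' ≠ P → U ∉ P')
    (ϖ : O) (hϖ : Irreducible ϖ) (u : Oˣ)
    (hU : algebraMap R K U = (u : O) * (ϖ : K) ^ N)
    (hxP : x ∈ P) (hx0 : x ≠ 0) (w : R) (hw : IsUnit w) (hwU : x ^ N = w * U) :
    P = Ideal.span {x} := by
  classical
  have := hOP.dvr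
  have hinj : Function.Injective (algebraMap R K) := IsFractionRing.injective R K
  have hxK : algebraMap R K x ≠ 0 := fun h => hx0 (hinj (by rw [h, map_zero]))
  have hϖK : (ϖ : K) ≠ 0 := by
    intro h
    apply hϖ.ne_zero
    exact Subtype.ext h
  have hinvO : ∀ v : Oˣ, ((((v : O) : K))⁻¹ ∈ O) := by
    intro v
    have h3 : (((v : O) : K)) * (((v⁻¹ : Oˣ) : O) : K) = 1 := by
      have h4 : (v : O) * ((v⁻¹ : Oˣ) : O) = 1 := Units.mul_inv v
      exact_mod_cast congrArg (fun z : O => (z : K)) h4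
    rw [← eq_inv_of_mul_eq_one_right h3]
    exact ((v⁻¹ : Oˣ) : O).2
  obtain ⟨c, ux, hx⟩ := exists_eq_unit_mul_pow_succ hOP ϖ hϖ x hxP hx0
  -- `c = 0`: compare valuations in `x ^ N = w * U`
  have hc : c = 0 := by
    by_contra hc0
    -- `ϖ ^ (N * c)` would be a unit of `O`
    have hwO : algebraMap R K w ∈ O := hOP.le w
    obtain ⟨w', hw'⟩ := hw.exists_right_inv
    have hw'O : algebraMap R K w' ∈ O := hOP.le w'
    have hww' : algebraMap R K w * algebraMap R K w' = 1 := by
      rw [← map_mul, hw', map_one]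
    have huxK : ((ux : O) : K) ≠ 0 := by
      intro h
      have : (ux : O) = 0 := Subtype.ext h
      exact ux.ne_zero this
    have hwK : algebraMap R K w ≠ 0 := fun h => by rw [h, zero_mul] at hww'; exact zero_ne_one hww'
    have h1 : algebraMap R K x ^ N = algebraMap R K w * algebraMap R K U := by
      rw [← map_pow, hwU, map_mul]
    rw [hx, hU, mul_pow, ← pow_mul] at h1
    -- `ϖ ^ ((c+1) N) * ux^N = w u ϖ^N`  ⟹  `ϖ ^ (c N) = w u ux^{-N}`
    have h2 : (ϖ : K) ^ (c * N) = algebraMap R K w * ((u : O) : K) * ((((ux : O) : K))⁻¹) ^ N := by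
      have hNe : (ϖ : K) ^ N ≠ 0 := pow_ne_zero _ hϖK
      have huxN : ((ux : O) : K) ^ N ≠ 0 := pow_ne_zero _ huxK
      have h3 : ((ux : O) : K) ^ N * ((ϖ : K) ^ (c * N) * (ϖ : K) ^ N)
          = algebraMap R K w * (((u : O) : K) * (ϖ : K) ^ N) := by
        rw [← pow_add, ← h1]
        congr 2
        ring
      have h5 : ((ux : O) : K) ^ N * (ϖ : K) ^ (c * N) = algebraMap R K w * ((u : O) : K) := by
        apply mul_right_cancel₀ hNe
        rw [mul_assoc, h3, mul_assoc]
      rw [inv_pow, ← h5, mul_comm (((ux : O) : K) ^ N), mul_assoc, mul_inv_cancel₀ huxN, mul_one]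
    have h4 : ((ϖ : K) ^ (c * N))⁻¹ ∈ O := by
      have e : ((ϖ : K) ^ (c * N))⁻¹
          = algebraMap R K w' * (((u : O) : K))⁻¹ * ((ux : O) : K) ^ N := by
        rw [h2, inv_pow]
        have huK : ((u : O) : K) ≠ 0 := by
          intro h
          have : (u : O) = 0 := Subtype.ext h
          exact u.ne_zero this
        field_simp
        linear_combination (-(1 : K)) * hww'
      rw [e]
      exact O.mul_mem _ _ (O.mul_mem _ _ hw'O (hinvO u)) (O.pow_mem (ux : O).2 _)
    -- but `ϖ` is not a unit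
    have hpos : 0 < c * N := Nat.mul_pos (Nat.pos_of_ne_zero hc0) hN
    have hunit : IsUnit (ϖ ^ (c * N) : O) := by
      refine IsUnit.of_mul_eq_one ⟨((ϖ : K) ^ (c * N))⁻¹, h4⟩ ?_
      apply Subtype.ext
      show (ϖ : K) ^ (c * N) * ((ϖ : K) ^ (c * N))⁻¹ = 1
      exact mul_inv_cancel₀ (pow_ne_zero _ hϖK)
    exact hϖ.not_isUnit ((isUnit_pow_iff hpos.ne').1 hunit)
  subst hc
  apply le_antisymm
  · intro y hy
    rw [Ideal.mem_span_singleton]
    by_cases hy0 : y = 0
    · rw [hy0]; exact dvd_zero x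
    have hratio : ∀ (O' : ValuationSubring K) (P' : Ideal R), IsLocDVR O' P' →
        algebraMap R K y * (algebraMap R K x)⁻¹ ∈ O' := by
      intro O' P' h'
      by_cases hPP : P' = P
      · subst hPP
        apply isLocDVR_le_of_same h' hOP
        obtain ⟨d, uy, hyeq⟩ := exists_eq_unit_mul_pow_succ hOP ϖ hϖ y hy hy0
        have h1 : algebraMap R K y * (algebraMap R K x)⁻¹
            = ((uy : O) : K) * ((((ux : O) : K))⁻¹) * (ϖ : K) ^ d := by
          have huxK : ((ux : O) : K) ≠ 0 := by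
            intro h
            have : (ux : O) = 0 := Subtype.ext h
            exact ux.ne_zero this
          rw [hyeq, hx]
          field_simp
          ring
        rw [h1]
        exact O.mul_mem _ _ (O.mul_mem _ _ (uy : O).2 (hinvO ux)) (O.pow_mem ϖ.2 _)
      · have hxP' : x ∉ P' := by
          intro hxin
          have h1 : w * U ∈ P' := by
            rw [← hwU]
            exact Ideal.pow_mem_of_mem _ hxin _ hN
          rcases h'.prime.mem_or_mem h1 with h | h
          · exact h'.prime.ne_top (Ideal.eq_top_of_isUnit_mem _ h hw)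
          · exact hUunit O' P' h' hPP h
        exact O'.mul_mem _ _ (h'.le y) (h'.inv_mem x hxP')
    obtain ⟨t, ht⟩ := mem_range_of_forall_isLocDVR _ hratio
    refine ⟨t, hinj ?_⟩
    rw [map_mul, ht, mul_comm, inv_mul_cancel_right₀ hxK]
  · rw [Ideal.span_le, Set.singleton_subset_iff]
    exact hxP

section Chart

variable {B : Type*} [CommRing B] [IsDomain B]
variable {F : Type*} [Field F] [Algebra B F] [IsFractionRing B F]

/-- Chart form of `exists_pow_eq_mul_pow`. -/
theorem exists_pow_eq_mul_pow_chart [IsNoetherianRing B] [IsIntegrallyClosed B]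
    (n : Ideal B) [hn : n.IsPrime]
    (O : ValuationSubring F) (P : Ideal B) (hOP : IsLocDVR O P) (hPn : P ≤ n)
    (U x : B) (N : ℕ)
    (hUunit : ∀ (O' : ValuationSubring F) (P' : Ideal B), IsLocDVR O' P' → P' ≤ n → P' ≠ P →
      U ∉ P')
    (ϖ : O) (hϖ : Irreducible ϖ) (u : Oˣ)
    (hU : algebraMap B F U = (u : O) * (ϖ : F) ^ N)
    (hxP : x ∈ P) (hx0 : x ≠ 0) :
    ∃ (c : ℕ) (s w : B), s ∉ n ∧ s * x ^ N = w * U ^ (c + 1) := by
  classical
  have hinjA : Function.Injective (algebraMap B (locAt F n)) :=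
    IsLocalization.injective (locAt F n) n.primeCompl_le_nonZeroDivisors
  have : IsIntegrallyClosed (locAt F n) :=
    isIntegrallyClosed_of_isLocalization (locAt F n) n.primeCompl n.primeCompl_le_nonZeroDivisors
  obtain ⟨c, w, hw⟩ := exists_pow_eq_mul_pow (R := locAt F n) (K := F) O
    (P.map (algebraMap B (locAt F n))) (isLocDVR_map n hOP hPn)
    (algebraMap B (locAt F n) U) (algebraMap B (locAt F n) x) N
    (by
      intro O' P'A h' hne
      obtain ⟨hB, hle⟩ := isLocDVR_comap n h'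
      have hne' : P'A.comap (algebraMap B (locAt F n)) ≠ P := by
        intro heq
        apply hne
        rw [← map_comap_locAt n P'A, heq]
      intro hmem
      exact hUunit O' _ hB hle hne' hmem)
    ϖ hϖ u hU (Ideal.mem_map_of_mem _ hxP)
    (fun h => hx0 (hinjA (by rw [h, map_zero])))
  obtain ⟨b, s, hs, hbs⟩ := exists_mul_eq_algebraMap n w
  refine ⟨c, s, b, hs, hinjA ?_⟩
  rw [map_mul, map_mul, map_pow, map_pow, hw, ← hbs]
  ring

/-- Chart form of `span_eq_of_pow_eq_unit_mul`. -/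
theorem hgen_of_pow_eq_chart [IsNoetherianRing B] [IsIntegrallyClosed B]
    (n : Ideal B) [hn : n.IsPrime]
    (O : ValuationSubring F) (P : Ideal B) (hOP : IsLocDVR O P) (hPn : P ≤ n)
    (U x : B) (N : ℕ) (hN : 0 < N)
    (hUunit : ∀ (O' : ValuationSubring F) (P' : Ideal B), IsLocDVR O' P' → P' ≤ n → P' ≠ P →
      U ∉ P')
    (ϖ : O) (hϖ : Irreducible ϖ) (u : Oˣ)
    (hU : algebraMap B F U = (u : O) * (ϖ : F) ^ N)
    (hxP : x ∈ P) (hx0 : x ≠ 0)
    (s w : B) (hs : s ∉ n) (hw : w ∉ n) (hsw : s * x ^ N = w * U) :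
    ∀ a ∈ P, ∃ g : B, g ∉ n ∧ ∃ c : B, g * a = x * c := by
  classical
  have hinjA : Function.Injective (algebraMap B (locAt F n)) :=
    IsLocalization.injective (locAt F n) n.primeCompl_le_nonZeroDivisors
  have : IsIntegrallyClosed (locAt F n) :=
    isIntegrallyClosed_of_isLocalization (locAt F n) n.primeCompl n.primeCompl_le_nonZeroDivisors
  obtain ⟨sinv, hsinv⟩ := (isUnit_algebraMap_locAt (F := F) n hs).exists_right_inv
  have hsinvu : IsUnit sinv := IsUnit.of_mul_eq_one _ (by rw [mul_comm]; exact hsinv)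
  have key := span_eq_of_pow_eq_unit_mul (R := locAt F n) (K := F) O
    (P.map (algebraMap B (locAt F n))) (isLocDVR_map n hOP hPn)
    (algebraMap B (locAt F n) U) (algebraMap B (locAt F n) x) N hN
    (by
      intro O' P'A h' hne
      obtain ⟨hB, hle⟩ := isLocDVR_comap n h'
      have hne' : P'A.comap (algebraMap B (locAt F n)) ≠ P := by
        intro heq
        apply hne
        rw [← map_comap_locAt n P'A, heq]
      intro hmem
      exact hUunit O' _ hB hle hne' hmem)
    ϖ hϖ u hU (Ideal.mem_map_of_mem _ hxP)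
    (fun h => hx0 (hinjA (by rw [h, map_zero])))
    (sinv * algebraMap B (locAt F n) w)
    (hsinvu.mul (isUnit_algebraMap_locAt (F := F) n hw))
    (by
      have h1 : algebraMap B (locAt F n) s * algebraMap B (locAt F n) x ^ N
          = algebraMap B (locAt F n) w * algebraMap B (locAt F n) U := by
        rw [← map_pow, ← map_mul, hsw, map_mul]
      calc algebraMap B (locAt F n) x ^ N
          = (algebraMap B (locAt F n) s * sinv) * algebraMap B (locAt F n) x ^ N := by
            rw [hsinv, one_mul]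
        _ = sinv * (algebraMap B (locAt F n) s * algebraMap B (locAt F n) x ^ N) := by ring
        _ = sinv * algebraMap B (locAt F n) w * algebraMap B (locAt F n) U := by
            rw [h1]; ring)
  intro a ha
  have h1 : algebraMap B (locAt F n) a ∈ P.map (algebraMap B (locAt F n)) :=
    Ideal.mem_map_of_mem _ ha
  rw [key, Ideal.mem_span_singleton] at h1
  obtain ⟨c, hc⟩ := h1
  obtain ⟨b, t, ht, hbt⟩ := exists_mul_eq_algebraMap n c
  refine ⟨t, ht, b, hinjA ?_⟩
  rw [map_mul, map_mul, hc, ← hbt]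
  ring

/-- **Local upper bound.**  For every order function `ν` at `n`: `ν U ≤ N * ν x`. -/
theorem ordLike_le [IsNoetherianRing B] [IsIntegrallyClosed B]
    (n : Ideal B) [hn : n.IsPrime]
    (O : ValuationSubring F) (P : Ideal B) (hOP : IsLocDVR O P) (hPn : P ≤ n)
    (U x : B) (N : ℕ)
    (hUunit : ∀ (O' : ValuationSubring F) (P' : Ideal B), IsLocDVR O' P' → P' ≤ n → P' ≠ P →
      U ∉ P')
    (ϖ : O) (hϖ : Irreducible ϖ) (u : Oˣ)
    (hU : algebraMap B F U = (u : O) * (ϖ : F) ^ N)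
    (hxP : x ∈ P) (hx0 : x ≠ 0)
    (ν : B → ℕ∞) (hmul : ∀ a b, ν (a * b) = ν a + ν b) (hunit : ∀ a, a ∉ n → ν a = 0) :
    ν U ≤ N * ν x := by
  obtain ⟨c, s, w, hs, hsw⟩ :=
    exists_pow_eq_mul_pow_chart n O P hOP hPn U x N hUunit ϖ hϖ u hU hxP hx0
  have hpow : ∀ (a : B) (k : ℕ), ν (a ^ k) = k * ν a := by
    intro a k
    induction k with
    | zero =>
      rw [pow_zero, Nat.cast_zero, zero_mul]
      exact hunit 1 (fun h => hn.ne_top ((Ideal.eq_top_iff_one _).2 h))
    | succ k ih => rw [pow_succ, hmul, ih, Nat.cast_succ, add_mul, one_mul]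
  have h1 := congrArg ν hsw
  rw [hmul, hmul, hpow, hpow, hunit s hs, zero_add] at h1
  rw [h1]
  calc ν U = 1 * ν U := (one_mul _).symm
    _ ≤ ((c + 1 : ℕ) : ℕ∞) * ν U := by
        gcongr
        exact_mod_cast Nat.succ_le_succ (Nat.zero_le c)
    _ ≤ ν w + ((c + 1 : ℕ) : ℕ∞) * ν U := le_add_self

/-- **Equality ⇒ locally principal.**  If `ν U = N * ν x` is finite and positive for an order
function `ν` at `n` which is positive on `n`, then `P` is generated by `x` locally at `n`. -/
theorem hgen_of_ordLike_eq [IsNoetherianRing B] [IsIntegrallyClosed B]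
    (n : Ideal B) [hn : n.IsPrime]
    (O : ValuationSubring F) (P : Ideal B) (hOP : IsLocDVR O P) (hPn : P ≤ n)
    (U x : B) (N : ℕ) (hN : 0 < N)
    (hUunit : ∀ (O' : ValuationSubring F) (P' : Ideal B), IsLocDVR O' P' → P' ≤ n → P' ≠ P →
      U ∉ P')
    (ϖ : O) (hϖ : Irreducible ϖ) (u : Oˣ)
    (hU : algebraMap B F U = (u : O) * (ϖ : F) ^ N)
    (hxP : x ∈ P) (hx0 : x ≠ 0)
    (ν : B → ℕ∞) (hmul : ∀ a b, ν (a * b) = ν a + ν b) (hunit : ∀ a, a ∉ n → ν a = 0)
    (hpos : ∀ a, a ∈ n → 1 ≤ ν a)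
    (k : ℕ) (hk : 0 < k) (hνU : ν U = k) (hνx : (N : ℕ∞) * ν x = k) :
    ∀ a ∈ P, ∃ g : B, g ∉ n ∧ ∃ c : B, g * a = x * c := by
  obtain ⟨c, s, w, hs, hsw⟩ :=
    exists_pow_eq_mul_pow_chart n O P hOP hPn U x N hUunit ϖ hϖ u hU hxP hx0
  have hpow : ∀ (a : B) (j : ℕ), ν (a ^ j) = j * ν a := by
    intro a j
    induction j with
    | zero =>
      rw [pow_zero, Nat.cast_zero, zero_mul]
      exact hunit 1 (fun h => hn.ne_top ((Ideal.eq_top_iff_one _).2 h))
    | succ j ih => rw [pow_succ, hmul, ih, Nat.cast_succ, add_mul, one_mul]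
  have h1 := congrArg ν hsw
  rw [hmul, hmul, hpow, hpow, hunit s hs, zero_add, hνx, hνU] at h1
  -- `k = ν w + (c+1) k` in `ℕ∞`
  have hwfin : ν w ≠ ⊤ := by
    intro htop
    rw [htop, top_add] at h1
    exact ENat.coe_ne_top k h1
  obtain ⟨a, ha⟩ := ENat.ne_top_iff_exists.1 hwfin
  rw [← ha] at h1
  have h2 : k = a + (c + 1) * k := by exact_mod_cast h1
  have hc : c = 0 := by
    by_contra hc0
    have : 1 ≤ c := Nat.pos_of_ne_zero hc0
    nlinarith
  subst hc
  have ha0 : a = 0 := by omega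
  have hwn : w ∉ n := by
    intro hw
    have := hpos w hw
    rw [← ha, ha0] at this
    simp at this
  have hsw' : s * x ^ N = w * U := by simpa using hsw
  exact hgen_of_pow_eq_chart n O P hOP hPn U x N hN hUunit ϖ hϖ u hU hxP hx0 s w hs hwn hsw'

end Chart

end Fermat.Agent.S36.H996
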