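import Fermat.Agent.A2.H849.Hartogs

/-!
# Lemma PU (principal-from-unit) — helper996, S36 engine (regularity at triple points)

Mathlib-only (on top of helper849's algebraic Hartogs lemma).

`R` a noetherian integrally closed LOCAL domain with fraction field `K`, `P` a height-one prime
with discrete valuation ring `O = R_P`, `Q'` any other prime, and
* `U ∈ R` with Weil divisor `N · [P]`  (unit at every other height-one prime, `v_P(U) = N`),
* `x ∈ P`, `x ∉ Q'`, with `x^N ∣ U` modulo `Q'`.
Then `P = (x)`.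

Application (see `coord/S36.md` §6): `R = B_n` the local ring of the chart of `X₀(q² M')` at a
supersingular point, `P = p_FF`, `Q' = p_VV`, `U = q¹² Δ(q² z)/Δ(q z)`, `N = 12`,
`x = j_{q²} − j^{q²}`; the divisibility is the Hasse-invariant input.  Also gives thickness `1`
of the nodes of `X₀(q M')`.
-/

set_option autoImplicit false

namespace Fermat.Agent.S36.H996

open IsLocalRing Fermat.Agent.A2.H849

variable {R : Type*} [CommRing R] [IsDomain R]
variable {K : Type*} [Field K] [Algebra R K] [IsFractionRing R K]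

omit [IsDomain R] [IsFractionRing R K] in
/-- Two discrete valuation subrings which are both "the localisation of `R` at `P`" are
comparable (hence equal). -/
theorem isLocDVR_le_of_same {O O' : ValuationSubring K} {P : Ideal R}
    (h : IsLocDVR O P) (h' : IsLocDVR O' P) : O' ≤ O := by
  intro x hx
  obtain ⟨r, s, hs, rfl⟩ := h'.exists_frac x hx
  exact O.mul_mem _ _ (h.le r) (h.inv_mem s hs)

omit [IsDomain R] in
/-- An element of `P` has positive valuation at `O = R_P`: it is `unit * ϖ ^ (c+1)`. -/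
theorem exists_eq_unit_mul_pow_succ {O : ValuationSubring K} {P : Ideal R}
    (hOP : IsLocDVR O P) (ϖ : O) (hϖ : Irreducible ϖ) (y : R) (hyP : y ∈ P) (hy0 : y ≠ 0) :
    ∃ (c : ℕ) (u : Oˣ), algebraMap R K y = (u : O) * (ϖ : K) ^ (c + 1) := by
  have := hOP.dvr
  have hinj : Function.Injective (algebraMap R K) := IsFractionRing.injective R K
  have hyK : algebraMap R K y ≠ 0 := fun h => hy0 (hinj (by rw [h, map_zero]))
  have hyO0 : (⟨algebraMap R K y, hOP.le y⟩ : O) ≠ 0 := by
    intro h
    exact hyK (congrArg (fun z : O => (z : K)) h)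
  obtain ⟨n, u, hu⟩ := IsDiscreteValuationRing.eq_unit_mul_pow_irreducible hyO0 hϖ
  have huK : algebraMap R K y = (u : O) * (ϖ : K) ^ n := by
    have := congrArg (fun z : O => (z : K)) hu
    simpa using this
  rcases n with _ | c
  · exfalso
    apply hOP.inv_not_mem y hyP hy0
    have h1 : algebraMap R K y = ((u : O) : K) := by simpa using huK
    rw [h1]
    have h2 : (((u⁻¹ : Oˣ) : O) : K) = (((u : O) : K))⁻¹ := by
      have h3 : (((u : O) : K)) * (((u⁻¹ : Oˣ) : O) : K) = 1 := by
        have h4 : (u : O) * ((u⁻¹ : Oˣ) : O) = 1 := Units.mul_inv u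
        exact_mod_cast congrArg (fun z : O => (z : K)) h4
      exact eq_inv_of_mul_eq_one_right h3
    rw [← h2]
    exact ((u⁻¹ : Oˣ) : O).2
  · exact ⟨c, u, huK⟩

/-- **Lemma PU (principal-from-unit).** -/
theorem principal_of_unit [IsLocalRing R] [IsNoetherianRing R] [IsIntegrallyClosed R]
    (O : ValuationSubring K) (P : Ideal R) (hOP : IsLocDVR O P)
    (Q' : Ideal R) [hQ' : Q'.IsPrime]
    (U x : R) (N : ℕ) (hN : 0 < N)
    (hUunit : ∀ (O' : ValuationSubring K) (P' : Ideal R), IsLocDVR O' P' → P' ≠ P → U ∉ P')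
    (ϖ : O) (hϖ : Irreducible ϖ) (u : Oˣ)
    (hU : algebraMap R K U = (u : O) * (ϖ : K) ^ N)
    (hxP : x ∈ P) (hxQ : x ∉ Q')
    (hdiv : ∃ r : R, U - r * x ^ N ∈ Q') :
    P = Ideal.span {x} := by
  classical
  have := hOP.dvr
  have := hOP.prime
  have hinj : Function.Injective (algebraMap R K) := IsFractionRing.injective R K
  have hx0 : x ≠ 0 := fun h => hxQ (h ▸ Q'.zero_mem)
  have hxK : algebraMap R K x ≠ 0 := fun h => hx0 (hinj (by rw [h, map_zero]))
  have hϖK : (ϖ : K) ≠ 0 := by
    intro h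
    apply hϖ.ne_zero
    exact Subtype.ext h
  have huK : ((u : O) : K) ≠ 0 := by
    intro h
    have : (u : O) = 0 := Subtype.ext h
    exact u.ne_zero this
  have hUK : algebraMap R K U ≠ 0 := by
    rw [hU]
    exact mul_ne_zero huK (pow_ne_zero _ hϖK)
  have hU0 : U ≠ 0 := fun h => hUK (by rw [h, map_zero])
  -- units of `O` are invertible in `K` inside `O`
  have hinvO : ∀ v : Oˣ, ((((v : O) : K))⁻¹ ∈ O) := by
    intro v
    have h3 : (((v : O) : K)) * (((v⁻¹ : Oˣ) : O) : K) = 1 := by
      have h4 : (v : O) * ((v⁻¹ : Oˣ) : O) = 1 := Units.mul_inv v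
      exact_mod_cast congrArg (fun z : O => (z : K)) h4
    rw [← eq_inv_of_mul_eq_one_right h3]
    exact ((v⁻¹ : Oˣ) : O).2
  -- valuation of `x` at `P`
  obtain ⟨c, ux, hx⟩ := exists_eq_unit_mul_pow_succ hOP ϖ hϖ x hxP hx0
  -- the element `ω = x^N / U^(c+1)`
  set ω : K := algebraMap R K x ^ N * (algebraMap R K U ^ (c + 1))⁻¹ with hω
  have hωO : ω ∈ O := by
    have h1 : ω = ((ux : O) : K) ^ N * ((((u : O) : K))⁻¹) ^ (c + 1) := by
      have hA : algebraMap R K U ^ (c + 1)
          = ((u : O) : K) ^ (c + 1) * (ϖ : K) ^ (N * (c + 1)) := by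
        rw [hU, mul_pow, ← pow_mul]
      have hB : algebraMap R K x ^ N = ((ux : O) : K) ^ N * (ϖ : K) ^ (N * (c + 1)) := by
        rw [hx, mul_pow, ← pow_mul, mul_comm (c + 1) N]
      have hM : (ϖ : K) ^ (N * (c + 1)) ≠ 0 := pow_ne_zero _ hϖK
      rw [hω, hA, hB, mul_inv, inv_pow]
      calc ((ux : O) : K) ^ N * (ϖ : K) ^ (N * (c + 1))
            * ((((u : O) : K) ^ (c + 1))⁻¹ * ((ϖ : K) ^ (N * (c + 1)))⁻¹)
          = ((ux : O) : K) ^ N * (((u : O) : K) ^ (c + 1))⁻¹
            * ((ϖ : K) ^ (N * (c + 1)) * ((ϖ : K) ^ (N * (c + 1)))⁻¹) := by ring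
        _ = ((ux : O) : K) ^ N * (((u : O) : K) ^ (c + 1))⁻¹ := by
            rw [mul_inv_cancel₀ hM, mul_one]
    rw [h1]
    exact O.mul_mem _ _ (O.pow_mem (ux : O).2 _) (O.pow_mem (hinvO u) _)
  have hωall : ∀ (O' : ValuationSubring K) (P' : Ideal R), IsLocDVR O' P' → ω ∈ O' := by
    intro O' P' h'
    by_cases hPP : P' = P
    · subst hPP
      exact isLocDVR_le_of_same h' hOP hωO
    · have hUinv : (algebraMap R K U)⁻¹ ∈ O' := h'.inv_mem U (hUunit O' P' h' hPP)
      rw [hω, ← inv_pow]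
      exact O'.mul_mem _ _ (O'.pow_mem (h'.le x) _) (O'.pow_mem hUinv _)
  obtain ⟨w, hw⟩ := mem_range_of_forall_isLocDVR ω hωall
  have hwU : x ^ N = w * U ^ (c + 1) := by
    apply hinj
    rw [map_mul, map_pow, map_pow, hw, hω, inv_mul_cancel_right₀ (pow_ne_zero _ hUK)]
  -- the congruence modulo `Q'`
  obtain ⟨r, hr⟩ := hdiv
  have hm : maximalIdeal R ≠ ⊤ := Ideal.IsPrime.ne_top inferInstance
  have hQm : Q' ≤ maximalIdeal R := le_maximalIdeal hQ'.ne_top
  have hPm : P ≤ maximalIdeal R := le_maximalIdeal hOP.prime.ne_top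
  have hkey : 1 - w * r ^ (c + 1) * x ^ (N * c) ∈ Q' := by
    have h1 : w * (U ^ (c + 1) - (r * x ^ N) ^ (c + 1)) ∈ Q' := by
      obtain ⟨k, hk⟩ := sub_dvd_pow_sub_pow U (r * x ^ N) (c + 1)
      rw [hk]
      exact Q'.mul_mem_left _ (Q'.mul_mem_right _ hr)
    have h2 : x ^ N * (1 - w * r ^ (c + 1) * x ^ (N * c))
        = w * (U ^ (c + 1) - (r * x ^ N) ^ (c + 1)) := by
      have h3 : (r * x ^ N) ^ (c + 1) = r ^ (c + 1) * (x ^ N * x ^ (N * c)) := by
        ring
      rw [h3, mul_sub, mul_sub, mul_one, ← hwU]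
      ring
    rw [← h2] at h1
    rcases hQ'.mem_or_mem h1 with h | h
    · exact absurd (hQ'.mem_of_pow_mem _ h) hxQ
    · exact h
  have hc : c = 0 := by
    by_contra hc0
    have hpos : 0 < N * c := Nat.mul_pos hN (Nat.pos_of_ne_zero hc0)
    have hxm : x ^ (N * c) ∈ maximalIdeal R :=
      Ideal.pow_mem_of_mem _ (hPm hxP) _ hpos
    have h1 : (1 : R) ∈ maximalIdeal R := by
      have := (maximalIdeal R).add_mem (hQm hkey)
        ((maximalIdeal R).mul_mem_left (w * r ^ (c + 1)) hxm)
      simp at this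
    exact hm ((Ideal.eq_top_iff_one _).2 h1)
  subst hc
  have hwunit : IsUnit w := by
    by_contra hnu
    have hwm : w ∈ maximalIdeal R := (mem_maximalIdeal w).2 hnu
    have h1 : (1 : R) ∈ maximalIdeal R := by
      have := (maximalIdeal R).add_mem (hQm hkey)
        ((maximalIdeal R).mul_mem_right (r ^ (0 + 1) * x ^ (N * 0)) hwm)
      simp at this
    exact hm ((Ideal.eq_top_iff_one _).2 h1)
  have hwU' : x ^ N = w * U := by simpa using hwU
  -- conclusion
  apply le_antisymm
  · intro y hy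
    rw [Ideal.mem_span_singleton]
    by_cases hy0 : y = 0
    · rw [hy0]; exact dvd_zero x
    have hratio : ∀ (O' : ValuationSubring K) (P' : Ideal R), IsLocDVR O' P' →
        algebraMap R K y * (algebraMap R K x)⁻¹ ∈ O' := by
      intro O' P' h'
      by_cases hPP : P' = P
      · subst hPP
        apply isLocDVR_le_of_same h' hOP
        obtain ⟨d, uy, hyeq⟩ := exists_eq_unit_mul_pow_succ hOP ϖ hϖ y hy hy0
        have h1 : algebraMap R K y * (algebraMap R K x)⁻¹
            = ((uy : O) : K) * ((((ux : O) : K))⁻¹) * (ϖ : K) ^ d := by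
          have huxK : ((ux : O) : K) ≠ 0 := by
            intro h
            have : (ux : O) = 0 := Subtype.ext h
            exact ux.ne_zero this
          rw [hyeq, hx]
          field_simp
          ring
        rw [h1]
        exact O.mul_mem _ _ (O.mul_mem _ _ (uy : O).2 (hinvO ux)) (O.pow_mem ϖ.2 _)
      · have hxP' : x ∉ P' := by
          intro hxin
          have h1 : w * U ∈ P' := by
            rw [← hwU']
            exact Ideal.pow_mem_of_mem _ hxin _ hN
          have := h'.prime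
          rcases h'.prime.mem_or_mem h1 with h | h
          · exact h'.prime.ne_top (Ideal.eq_top_of_isUnit_mem _ h hwunit)
          · exact hUunit O' P' h' hPP h
        exact O'.mul_mem _ _ (h'.le y) (h'.inv_mem x hxP')
    obtain ⟨t, ht⟩ := mem_range_of_forall_isLocDVR _ hratio
    refine ⟨t, hinj ?_⟩
    rw [map_mul, ht, mul_comm, inv_mul_cancel_right₀ hxK]
  · rw [Ideal.span_le, Set.singleton_subset_iff]
    exact hxP

omit [IsDomain R] in
/-- **Regularity from PU.**  If `P = (x)` and the maximal ideal of `R ⧸ P` is generated by the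
class of `y`, then the maximal ideal of `R` is `(x, y)`. -/
theorem maximalIdeal_eq_span_pair [IsLocalRing R] (P : Ideal R) (x y : R)
    (hP : P = Ideal.span {x}) (hPm : P ≤ maximalIdeal R) (hy : y ∈ maximalIdeal R)
    (hgen : ∀ z ∈ maximalIdeal R, ∃ t : R, z - t * y ∈ P) :
    maximalIdeal R = Ideal.span {x, y} := by
  apply le_antisymm
  · intro z hz
    obtain ⟨t, ht⟩ := hgen z hz
    rw [hP, Ideal.mem_span_singleton] at ht
    obtain ⟨s, hs⟩ := ht
    rw [Ideal.mem_span_pair]
    refine ⟨s, t, ?_⟩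
    have : z = x * s + t * y := by rw [← hs]; ring
    rw [this]; ring
  · rw [Ideal.span_le]
    rintro z (rfl | rfl)
    · exact hPm (hP ▸ Ideal.mem_span_singleton_self z)
    · exact hy

end Fermat.Agent.S36.H996

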