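import Fermat.Agent.S36.H996.PU

/-!
# Lemma PU in chart form (helper996, S36 cell REG)

`B` a Noetherian integrally closed domain (a chart), `n` a prime (closed point).  The
hypotheses of `principal_of_unit` are stated on `B` (only the height-one primes THROUGH `n`
matter, divisibility modulo `Q'` is allowed a denominator outside `n`), the conclusion is the
elementwise local principality of `P` at `n`:

  `∀ a ∈ P, ∃ g ∉ n, ∃ c, g * a = x * c`,

which is the hypothesis `hgen` of `pure_regular_abs` (`RegPure.lean`).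
-/

set_option autoImplicit false

namespace Fermat.Agent.S36.H996

open IsLocalRing Fermat.Agent.A2.H849

variable {B : Type*} [CommRing B] [IsDomain B]
variable {F : Type*} [Field F] [Algebra B F] [IsFractionRing B F]

section Transfer

variable (n : Ideal B) [hn : n.IsPrime]

theorem coe_algebraMap_locAt (b : B) :
    ((algebraMap B (locAt F n) b : locAt F n) : F) = algebraMap B F b := rfl

theorem algebraMap_locAt_val (a : locAt F n) : algebraMap (locAt F n) F a = (a : F) := rfl

omit [IsDomain B] in
theorem disjoint_primeCompl_of_le {P : Ideal B} (hPn : P ≤ n) :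
    Disjoint (n.primeCompl : Set B) (P : Set B) := by
  rw [Set.disjoint_left]
  intro x hx hxP
  exact hx (hPn hxP)

theorem comap_map_locAt {P : Ideal B} (hP : P.IsPrime) (hPn : P ≤ n) :
    (P.map (algebraMap B (locAt F n))).comap (algebraMap B (locAt F n)) = P :=
  IsLocalization.comap_map_of_isPrime_disjoint n.primeCompl (locAt F n) hP
    (disjoint_primeCompl_of_le n hPn)

theorem map_comap_locAt (Q : Ideal (locAt F n)) :
    (Q.comap (algebraMap B (locAt F n))).map (algebraMap B (locAt F n)) = Q :=
  IsLocalization.map_comap n.primeCompl (locAt F n) Q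

theorem comap_le_of_isPrime (Q : Ideal (locAt F n)) (hQ : Q.IsPrime) :
    Q.comap (algebraMap B (locAt F n)) ≤ n := by
  intro b hb
  by_contra hbn
  have hu : IsUnit (algebraMap B (locAt F n) b) :=
    IsLocalization.map_units (locAt F n) (⟨b, hbn⟩ : n.primeCompl)
  exact hQ.ne_top (Ideal.eq_top_of_isUnit_mem _ hb hu)

/-- every element of `B_n` is `b / t` with `t ∉ n`, inside `B_n`. -/
theorem exists_mul_eq_algebraMap (a : locAt F n) :
    ∃ b t : B, t ∉ n ∧ a * algebraMap B (locAt F n) t = algebraMap B (locAt F n) b := by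
  obtain ⟨b, t, ht, hbt⟩ := (mem_locAt_iff n _).1 a.2
  have hinj : Function.Injective (algebraMap B F) := IsFractionRing.injective B F
  have htF : algebraMap B F t ≠ 0 := by
    intro h0
    apply ht
    rw [hinj (by rw [h0, map_zero] : algebraMap B F t = algebraMap B F 0)]
    exact n.zero_mem
  refine ⟨b, t, ht, Subtype.ext ?_⟩
  show (a : F) * algebraMap B F t = algebraMap B F b
  rw [hbt, inv_mul_cancel_right₀ htF]

theorem isUnit_algebraMap_locAt {t : B} (ht : t ∉ n) :
    IsUnit (algebraMap B (locAt F n) t) :=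
  IsLocalization.map_units (locAt F n) (⟨t, ht⟩ : n.primeCompl)

/-- **(T1)** a localisation DVR of `B` at a prime through `n` is a localisation DVR of `B_n`. -/
theorem isLocDVR_map {O : ValuationSubring F} {P : Ideal B} (h : IsLocDVR O P) (hPn : P ≤ n) :
    IsLocDVR O (P.map (algebraMap B (locAt F n))) := by
  have hinj : Function.Injective (algebraMap B F) := IsFractionRing.injective B F
  have hinjA : Function.Injective (algebraMap B (locAt F n)) :=
    IsLocalization.injective (locAt F n) n.primeCompl_le_nonZeroDivisors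
  have hcm := comap_map_locAt (F := F) n h.prime hPn
  have hmemP : ∀ b : B, algebraMap B (locAt F n) b ∈ P.map (algebraMap B (locAt F n)) ↔ b ∈ P := by
    intro b
    rw [← Ideal.mem_comap, hcm]
  have hprime : (P.map (algebraMap B (locAt F n))).IsPrime :=
    IsLocalization.isPrime_of_isPrime_disjoint n.primeCompl (locAt F n) P h.prime
      (disjoint_primeCompl_of_le n hPn)
  refine ⟨hprime, ?_, h.dvr, ?_, ?_, ?_, ?_, ?_⟩
  · intro hbot
    obtain ⟨p, hp, hp0⟩ := Submodule.exists_mem_ne_zero_of_ne_bot h.ne_bot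
    have h1 : algebraMap B (locAt F n) p ∈ P.map (algebraMap B (locAt F n)) :=
      Ideal.mem_map_of_mem _ hp
    rw [hbot, Ideal.mem_bot] at h1
    exact hp0 (hinjA (by rw [h1, map_zero]))
  · intro a
    obtain ⟨b, t, ht, hbt⟩ := (mem_locAt_iff n _).1 a.2
    show (a : F) ∈ O
    rw [hbt]
    exact O.mul_mem _ _ (h.le b) (h.inv_mem t (fun htP => ht (hPn htP)))
  · intro x hx
    obtain ⟨r, s, hs, hxrs⟩ := h.exists_frac x hx
    exact ⟨algebraMap B _ r, algebraMap B _ s, fun hmem => hs ((hmemP s).1 hmem), hxrs⟩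
  · intro s hs
    obtain ⟨b, t, ht, hbt⟩ := exists_mul_eq_algebraMap n s
    have hbP : b ∉ P := by
      intro hb
      apply hs
      have h1 : s * algebraMap B (locAt F n) t ∈ P.map (algebraMap B (locAt F n)) := by
        rw [hbt]; exact (hmemP b).2 hb
      rcases hprime.mem_or_mem h1 with h2 | h2
      · exact h2
      · exact absurd ((hmemP t).1 h2) (fun htP => ht (hPn htP))
    have hbt' : (s : F) * algebraMap B F t = algebraMap B F b :=
      congrArg (fun z : locAt F n => (z : F)) hbt
    have hbF : algebraMap B F b ≠ 0 := by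
      intro h0
      apply hbP
      rw [hinj (by rw [h0, map_zero] : algebraMap B F b = algebraMap B F 0)]
      exact P.zero_mem
    have hsF : (s : F) ≠ 0 := by
      intro h0
      rw [h0, zero_mul] at hbt'
      exact hbF hbt'.symm
    have htF : algebraMap B F t ≠ 0 := by
      intro h0
      rw [h0, mul_zero] at hbt'
      exact hbF hbt'.symm
    have e : (algebraMap (locAt F n) F s)⁻¹ = algebraMap B F t * (algebraMap B F b)⁻¹ := by
      show ((s : F))⁻¹ = _
      rw [← hbt']
      field_simp
    rw [e]
    exact O.mul_mem _ _ (h.le t) (h.inv_mem b hbP)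
  · intro r hr hr0 hinv
    obtain ⟨b, t, ht, hbt⟩ := exists_mul_eq_algebraMap n r
    have hbP : b ∈ P := by
      rw [← hmemP, ← hbt]
      exact Ideal.mul_mem_right _ _ hr
    have hbt' : (r : F) * algebraMap B F t = algebraMap B F b :=
      congrArg (fun z : locAt F n => (z : F)) hbt
    have hrF : (r : F) ≠ 0 := by
      intro h0
      exact hr0 (Subtype.ext h0)
    have htP : t ∉ P := fun htP => ht (hPn htP)
    have htF : algebraMap B F t ≠ 0 := by
      intro h0
      apply htP
      rw [hinj (by rw [h0, map_zero] : algebraMap B F t = algebraMap B F 0)]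
      exact P.zero_mem
    have hb0 : b ≠ 0 := by
      intro hb
      rw [hb, map_zero] at hbt'
      exact (mul_ne_zero hrF htF) hbt'
    apply h.inv_not_mem b hbP hb0
    have e : (algebraMap B F b)⁻¹ = (algebraMap B F t)⁻¹ * ((r : F))⁻¹ := by
      rw [← hbt']
      field_simp
    rw [e]
    exact O.mul_mem _ _ (h.inv_mem t htP) hinv
  · intro Q hQ hQ0 hle
    have hc : Q.comap (algebraMap B (locAt F n)) = P := by
      apply h.height_one _ (Ideal.comap_isPrime _ _)
      · intro hbot
        apply hQ0
        rw [← map_comap_locAt n Q, hbot, Ideal.map_bot]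
      · rw [← hcm]
        exact Ideal.comap_mono hle
    rw [← map_comap_locAt n Q, hc]

/-- **(T2)** a localisation DVR of `B_n` is a localisation DVR of `B`, at a prime through `n`. -/
theorem isLocDVR_comap {O : ValuationSubring F} {Q : Ideal (locAt F n)} (h : IsLocDVR O Q) :
    IsLocDVR O (Q.comap (algebraMap B (locAt F n))) ∧ Q.comap (algebraMap B (locAt F n)) ≤ n := by
  have hinj : Function.Injective (algebraMap B F) := IsFractionRing.injective B F
  have hinjA : Function.Injective (algebraMap B (locAt F n)) :=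
    IsLocalization.injective (locAt F n) n.primeCompl_le_nonZeroDivisors
  have hQp := h.prime
  have hle := comap_le_of_isPrime n Q h.prime
  have hmc := map_comap_locAt n Q
  refine ⟨⟨Ideal.comap_isPrime _ _, ?_, h.dvr, ?_, ?_, ?_, ?_, ?_⟩, hle⟩
  · intro hbot
    apply h.ne_bot
    rw [← hmc, hbot, Ideal.map_bot]
  · intro b
    exact h.le (algebraMap B (locAt F n) b)
  · intro x hx
    obtain ⟨r, s, hs, hxrs⟩ := h.exists_frac x hx
    obtain ⟨b₁, t₁, ht₁, hbt₁⟩ := exists_mul_eq_algebraMap n r
    obtain ⟨b₂, t₂, ht₂, hbt₂⟩ := exists_mul_eq_algebraMap n s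
    have h1 : (r : F) * algebraMap B F t₁ = algebraMap B F b₁ :=
      congrArg (fun z : locAt F n => (z : F)) hbt₁
    have h2 : (s : F) * algebraMap B F t₂ = algebraMap B F b₂ :=
      congrArg (fun z : locAt F n => (z : F)) hbt₂
    have hb₂ : algebraMap B (locAt F n) b₂ ∉ Q := by
      intro hb
      rw [← hbt₂] at hb
      rcases hQp.mem_or_mem hb with h3 | h3
      · exact hs h3
      · exact hQp.ne_top (Ideal.eq_top_of_isUnit_mem _ h3 (isUnit_algebraMap_locAt n ht₂))
    have ht₁Q : algebraMap B (locAt F n) t₁ ∉ Q := fun h3 =>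
      hQp.ne_top (Ideal.eq_top_of_isUnit_mem _ h3 (isUnit_algebraMap_locAt n ht₁))
    have ht₁F : algebraMap B F t₁ ≠ 0 := by
      intro h0
      apply ht₁
      rw [hinj (by rw [h0, map_zero] : algebraMap B F t₁ = algebraMap B F 0)]
      exact n.zero_mem
    have ht₂F : algebraMap B F t₂ ≠ 0 := by
      intro h0
      apply ht₂
      rw [hinj (by rw [h0, map_zero] : algebraMap B F t₂ = algebraMap B F 0)]
      exact n.zero_mem
    have hb₂F : algebraMap B F b₂ ≠ 0 := by
      intro h0
      apply hb₂
      have : algebraMap B (locAt F n) b₂ = 0 := Subtype.ext (by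
        show algebraMap B F b₂ = 0
        exact h0)
      rw [this]
      exact Q.zero_mem
    refine ⟨b₁ * t₂, t₁ * b₂, ?_, ?_⟩
    · intro hmem
      rw [Ideal.mem_comap, map_mul] at hmem
      rcases hQp.mem_or_mem hmem with h3 | h3
      · exact ht₁Q h3
      · exact hb₂ h3
    · have hsF : (s : F) ≠ 0 := by
        intro h0
        rw [h0, zero_mul] at h2
        exact hb₂F h2.symm
      have hx' : x = (r : F) * ((s : F))⁻¹ := hxrs
      rw [hx', map_mul, map_mul, ← h1, ← h2]
      field_simp
  · intro s hs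
    exact h.inv_mem (algebraMap B (locAt F n) s) hs
  · intro r hr hr0
    exact h.inv_not_mem (algebraMap B (locAt F n) r) hr
      (fun h0 => hr0 (hinjA (by rw [h0, map_zero])))
  · intro Q' hQ' hQ'0 hQ'le
    have hd : Disjoint (n.primeCompl : Set B) (Q' : Set B) :=
      disjoint_primeCompl_of_le n (hQ'le.trans hle)
    have hQ'map : (Q'.map (algebraMap B (locAt F n))).IsPrime :=
      IsLocalization.isPrime_of_isPrime_disjoint n.primeCompl (locAt F n) Q' hQ' hd
    have h3 : Q'.map (algebraMap B (locAt F n)) = Q := by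
      apply h.height_one _ hQ'map
      · intro hbot
        obtain ⟨p, hp, hp0⟩ := Submodule.exists_mem_ne_zero_of_ne_bot hQ'0
        have h1 : algebraMap B (locAt F n) p ∈ Q'.map (algebraMap B (locAt F n)) :=
          Ideal.mem_map_of_mem _ hp
        rw [hbot, Ideal.mem_bot] at h1
        exact hp0 (hinjA (by rw [h1, map_zero]))
      · rw [← hmc]
        exact Ideal.map_mono hQ'le
    rw [← h3]
    exact (IsLocalization.comap_map_of_isPrime_disjoint n.primeCompl (locAt F n) hQ' hd).symm

end Transfer

/-- **Lemma PU, chart form.** -/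
theorem principal_of_unit_chart [IsNoetherianRing B] [IsIntegrallyClosed B]
    (n : Ideal B) [hn : n.IsPrime]
    (O : ValuationSubring F) (P : Ideal B) (hOP : IsLocDVR O P) (hPn : P ≤ n)
    (Q' : Ideal B) [hQ' : Q'.IsPrime] (hQ'n : Q' ≤ n)
    (U x : B) (N : ℕ) (hN : 0 < N)
    (hUunit : ∀ (O' : ValuationSubring F) (P' : Ideal B), IsLocDVR O' P' → P' ≤ n → P' ≠ P →
      U ∉ P')
    (ϖ : O) (hϖ : Irreducible ϖ) (u : Oˣ)
    (hU : algebraMap B F U = (u : O) * (ϖ : F) ^ N)
    (hxP : x ∈ P) (hxQ : x ∉ Q')
    (hdiv : ∃ r s : B, s ∉ n ∧ s * U - r * x ^ N ∈ Q') :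
    ∀ a ∈ P, ∃ g : B, g ∉ n ∧ ∃ c : B, g * a = x * c := by
  classical
  have hinj : Function.Injective (algebraMap B F) := IsFractionRing.injective B F
  have : IsIntegrallyClosed (locAt F n) :=
    isIntegrallyClosed_of_isLocalization (locAt F n) n.primeCompl n.primeCompl_le_nonZeroDivisors
  have hP := hOP.prime
  have hcmP := comap_map_locAt (F := F) n hP hPn
  have hcmQ := comap_map_locAt (F := F) n hQ' hQ'n
  have hQ'A : (Q'.map (algebraMap B (locAt F n))).IsPrime :=
    IsLocalization.isPrime_of_isPrime_disjoint n.primeCompl (locAt F n) Q' hQ'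
      (disjoint_primeCompl_of_le n hQ'n)
  have key := principal_of_unit (R := locAt F n) (K := F) O (P.map (algebraMap B (locAt F n)))
    (isLocDVR_map n hOP hPn) (Q'.map (algebraMap B (locAt F n)))
    (algebraMap B (locAt F n) U) (algebraMap B (locAt F n) x) N hN ?_ ϖ hϖ u hU
    (Ideal.mem_map_of_mem _ hxP) ?_ ?_
  · intro a ha
    have h1 : algebraMap B (locAt F n) a ∈ P.map (algebraMap B (locAt F n)) :=
      Ideal.mem_map_of_mem _ ha
    rw [key, Ideal.mem_span_singleton] at h1
    obtain ⟨c, hc⟩ := h1
    obtain ⟨b, t, ht, hbt⟩ := exists_mul_eq_algebraMap n c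
    refine ⟨t, ht, b, ?_⟩
    apply IsLocalization.injective (locAt F n) n.primeCompl_le_nonZeroDivisors
    rw [map_mul, map_mul, hc, ← hbt]
    ring
  · intro O' P'A h' hne
    obtain ⟨hB, hle⟩ := isLocDVR_comap n h'
    have hne' : P'A.comap (algebraMap B (locAt F n)) ≠ P := by
      intro heq
      apply hne
      rw [← map_comap_locAt n P'A, heq]
    intro hmem
    exact hUunit O' _ hB hle hne' hmem
  · intro hmem
    apply hxQ
    rw [← hcmQ]
    exact hmem
  · obtain ⟨r, s, hs, hrs⟩ := hdiv
    obtain ⟨sinv, hsinv⟩ := (isUnit_algebraMap_locAt (F := F) n hs).exists_right_inv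
    refine ⟨algebraMap B (locAt F n) r * sinv, ?_⟩
    have h1 : algebraMap B (locAt F n) (s * U - r * x ^ N) ∈
        Q'.map (algebraMap B (locAt F n)) := Ideal.mem_map_of_mem _ hrs
    have h2 : algebraMap B (locAt F n) U
          - algebraMap B (locAt F n) r * sinv * algebraMap B (locAt F n) x ^ N
        = sinv * algebraMap B (locAt F n) (s * U - r * x ^ N) := by
      rw [map_sub, map_mul, map_mul, map_pow, mul_sub, ← mul_assoc, mul_comm sinv, hsinv]
      ring
    rw [h2]
    exact Ideal.mul_mem_left _ _ h1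

end Fermat.Agent.S36.H996
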